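import Fermat.Agent.LT.T3.M.Spec
import Fermat.Agent.LT.T3.H245.PureReg

/-!
# Row LT, tower T3, station T3.18M, leaf M.3 `PureRegMC` (helper709)

OFF-MAIN.  `pureRegMC709 (K) : Fermat.Agent.LT.T3.M.PureRegMC K`: the multi-place pure tensor
`⊗_{v ∈ P} f₀_v ⊗ ⊗_w F_w ⊗ 1_{U^{S'}}`, `S' = P ∪ S_∞`, is continuous, of compact support,
bi-invariant under `U(𝔫) K_∞` and supported at `S'`.

Vocabulary: `LT/T3/M/Spec.lean` (sha256 bf15afa4) of helper14, byte-identical copy.  Port of the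
single-place proof of helper245 (`LT/T3/H245/PureReg{A,B,}.lean`, byte-identical copies, imported
as they are): `v₀` is replaced by the finite set `P`, the common denominator at `v₀` by the
product of the common denominators at the places of `P`.  `P = ∅` is allowed.
-/

set_option autoImplicit false
set_option linter.style.haveILetI false

open IsDedekindDomain NumberField MeasureTheory
open Fermat.Agent.LT.H556.A0
open scoped RestrictedProduct

noncomputable section

namespace Fermat.Agent.LT.T3.M.H709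

open Fermat.Agent.LT.T3 Fermat.Agent.LT.T3.H245

variable {K : Type} [Field K] [NumberField K]

/-! ## The subgroup `OutsideUM` -/

theorem outsideUM_iff709 {𝔫 : Ideal (𝓞 K)} {P : Finset (HeightOneSpectrum (𝓞 K))} {h : G K} :
    OutsideUM K 𝔫 P h ↔ ∀ v : HeightOneSpectrum (𝓞 K), v ∉ P →
      AS.finGL K v h ∈ locU245 𝔫 v := by
  constructor
  · intro H v hv i j
    refine ⟨(H v hv i j).1, ?_⟩
    rw [← map_inv]
    exact (H v hv i j).2
  · intro H v hv i j
    refine ⟨(H v hv i j).1, ?_⟩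
    have := (H v hv i j).2
    rw [← map_inv] at this
    exact this

/-- `{h | OutsideUM h}` as a subgroup of `GL₂(𝔸_K)`. -/
def outUM709 (𝔫 : Ideal (𝓞 K)) (P : Finset (HeightOneSpectrum (𝓞 K))) : Subgroup (G K) where
  carrier := {h | OutsideUM K 𝔫 P h}
  mul_mem' := by
    intro a b ha hb
    rw [Set.mem_ofPred_eq, outsideUM_iff709] at ha hb ⊢
    intro v hv
    rw [map_mul]
    exact mul_mem (ha v hv) (hb v hv)
  one_mem' := by
    rw [Set.mem_ofPred_eq, outsideUM_iff709]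
    intro v _
    rw [map_one]
    exact one_mem _
  inv_mem' := by
    intro a ha
    rw [Set.mem_ofPred_eq, outsideUM_iff709] at ha ⊢
    intro v hv
    rw [map_inv]
    exact inv_mem (ha v hv)

theorem mem_outUM709 {𝔫 : Ideal (𝓞 K)} {P : Finset (HeightOneSpectrum (𝓞 K))} {h : G K} :
    h ∈ outUM709 𝔫 P ↔ OutsideUM K 𝔫 P h := Iff.rfl

/-- `OutsideUM` is open. -/
theorem isOpen_outUM709 {𝔫 : Ideal (𝓞 K)} (h𝔫 : 𝔫 ≠ ⊥)
    (P : Finset (HeightOneSpectrum (𝓞 K))) : IsOpen (outUM709 𝔫 P : Set (G K)) := by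
  apply Subgroup.isOpen_of_mem_nhds
  have hT : {v : HeightOneSpectrum (𝓞 K) | v.asIdeal ∣ 𝔫}.Finite := Ideal.finite_factors h𝔫
  set W : Set (FiniteAdeleRing (𝓞 K) K) :=
    {x | ∀ v, x v ∈ v.adicCompletionIntegers K}
      ∩ ⋂ v ∈ {v : HeightOneSpectrum (𝓞 K) | v.asIdeal ∣ 𝔫},
          {x : FiniteAdeleRing (𝓞 K) K | x v ∈ idealClosure 𝔫 v} with hWdef
  have hW : IsOpen W := by
    refine IsOpen.inter ?_ ?_
    · exact RestrictedProduct.isOpen_forall_mem (fun v => Valued.isOpen_valuationSubring _)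
    · refine hT.isOpen_biInter fun v _ => ?_
      exact (isOpen_idealClosure245 𝔫 v h𝔫).preimage (RestrictedProduct.continuous_eval v)
  have hWI : ∀ x ∈ W, ∀ v, x v ∈ idealClosure 𝔫 v := by
    intro x hx v
    by_cases hv : v.asIdeal ∣ 𝔫
    · exact Set.mem_iInter₂.1 hx.2 v hv
    · rw [idealClosure_eq_integers245 𝔫 v hv]
      exact hx.1 v
  have hW0 : (0 : FiniteAdeleRing (𝓞 K) K) ∈ W := by
    refine ⟨fun v => zero_mem _, Set.mem_iInter₂.2 fun v _ => ?_⟩
    exact zero_mem_idealClosure245 𝔫 v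
  set V : Set (G K) := ⋂ i : Fin 2, ⋂ j : Fin 2,
    ((fun h : G K => (((h : Matrix (Fin 2) (Fin 2) (Adl K)) - 1) i j).2) ⁻¹' W
      ∩ (fun h : G K => ((((h⁻¹ : G K) : Matrix (Fin 2) (Fin 2) (Adl K)) - 1) i j).2) ⁻¹' W)
    with hVdef
  have hsnd : Continuous (fun x : Adl K => x.2) := continuous_snd
  have hV : IsOpen V := by
    refine isOpen_iInter_of_finite fun i => isOpen_iInter_of_finite fun j => ?_
    refine (hW.preimage ?_).inter (hW.preimage ?_)
    · exact hsnd.comp ((Units.continuous_val.sub continuous_const).matrix_elem i j)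
    · exact hsnd.comp
        (((Units.continuous_val.comp continuous_inv).sub continuous_const).matrix_elem i j)
  have h1 : (1 : G K) ∈ V := by
    refine Set.mem_iInter.2 fun i => Set.mem_iInter.2 fun j => ⟨?_, ?_⟩
    · show (((((1 : G K) : Matrix (Fin 2) (Fin 2) (Adl K)) - 1) i j).2) ∈ W
      rw [Units.val_one, sub_self]
      exact hW0
    · show ((((((1 : G K)⁻¹ : G K) : Matrix (Fin 2) (Fin 2) (Adl K)) - 1) i j).2) ∈ W
      rw [inv_one, Units.val_one, sub_self]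
      exact hW0
  refine Filter.mem_of_superset (hV.mem_nhds h1) ?_
  intro h hh v _ i j
  have hij := Set.mem_iInter.1 (Set.mem_iInter.1 hh i) j
  refine ⟨?_, ?_⟩
  · rw [finComp_sub_one245]
    exact hWI _ hij.1 v
  · rw [finComp_sub_one245]
    exact hWI _ hij.2 v

/-- `OutsideUM` is open and closed. -/
theorem isClopen_outsideUM709 {𝔫 : Ideal (𝓞 K)} (h𝔫 : 𝔫 ≠ ⊥)
    (P : Finset (HeightOneSpectrum (𝓞 K))) : IsClopen {h : G K | OutsideUM K 𝔫 P h} :=
  ⟨Subgroup.isClosed_of_isOpen (outUM709 𝔫 P) (isOpen_outUM709 h𝔫 P), isOpen_outUM709 h𝔫 P⟩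

/-! ## Continuity of the pure tensor -/

theorem continuous_pureFnM709 {𝔫 : Ideal (𝓞 K)} (h𝔫 : 𝔫 ≠ ⊥)
    (P : Finset (HeightOneSpectrum (𝓞 K)))
    {f₀ : ∀ v : HeightOneSpectrum (𝓞 K), GL (Fin 2) (v.adicCompletion K) → ℂ}
    {F : InfinitePlace K → GL (Fin 2) ℂ → ℂ}
    (hf₀ : ∀ v ∈ P, AS.IsBiIntInv v (f₀ v)) (hF : ∀ w, Continuous (F w)) :
    Continuous (pureFnM K 𝔫 P f₀ F) := by
  have hφ : Continuous (fun h : G K =>
      (∏ v ∈ P, f₀ v (AS.finGL K v h)) * ∏ w : InfinitePlace K, F w (AS.infGL K w h)) :=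
    (continuous_finsetProd _ fun v hv =>
        (continuous_of_biIntInv245 (hf₀ v hv)).comp (continuous_finGL245 v)).mul
      (continuous_finsetProd _ fun w _ => (hF w).comp (continuous_infGL245 w))
  unfold pureFnM
  classical
  refine Continuous.if ?_ hφ continuous_const
  intro a ha
  rw [(isClopen_outsideUM709 h𝔫 P).frontier_eq] at ha
  exact absurd ha (Set.notMem_empty a)

/-! ## The components of the level group and of the archimedean compact groups -/

theorem level_mem_outUM709 {𝔫 : Ideal (𝓞 K)} {P : Finset (HeightOneSpectrum (𝓞 K))} {u : G K}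
    (hu : InLevelGroup 𝔫 u) : u ∈ outUM709 𝔫 P :=
  outsideUM_iff709.2 fun v _ => finGL_mem_locU_of_level245 hu v

theorem arch_mem_outUM709 {𝔫 : Ideal (𝓞 K)} {P : Finset (HeightOneSpectrum (𝓞 K))}
    {w : InfinitePlace K} {k : G K} (hk : IsLocalAtInf w k) : k ∈ outUM709 𝔫 P :=
  outsideUM_iff709.2 fun v _ => by
    rw [finGL_eq_one245 (hk.2 v)]
    exact one_mem _

theorem pureFnM_congr709 {𝔫 : Ideal (𝓞 K)} {P : Finset (HeightOneSpectrum (𝓞 K))}
    {f₀ : ∀ v : HeightOneSpectrum (𝓞 K), GL (Fin 2) (v.adicCompletion K) → ℂ}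
    {F : InfinitePlace K → GL (Fin 2) ℂ → ℂ}
    {h h' : G K} (h1 : OutsideUM K 𝔫 P h ↔ OutsideUM K 𝔫 P h')
    (h2 : ∀ v ∈ P, f₀ v (AS.finGL K v h) = f₀ v (AS.finGL K v h'))
    (h3 : ∀ w, F w (AS.infGL K w h) = F w (AS.infGL K w h')) :
    pureFnM K 𝔫 P f₀ F h = pureFnM K 𝔫 P f₀ F h' := by
  unfold pureFnM
  by_cases hh : OutsideUM K 𝔫 P h
  · rw [if_pos hh, if_pos (h1.1 hh), Finset.prod_congr rfl h2,
      Finset.prod_congr rfl fun w _ => h3 w]
  · rw [if_neg hh, if_neg (fun H => hh (h1.2 H))]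

theorem outsideUM_of_pureFnM_ne_zero709 {𝔫 : Ideal (𝓞 K)}
    {P : Finset (HeightOneSpectrum (𝓞 K))}
    {f₀ : ∀ v : HeightOneSpectrum (𝓞 K), GL (Fin 2) (v.adicCompletion K) → ℂ}
    {F : InfinitePlace K → GL (Fin 2) ℂ → ℂ}
    {h : G K} (hh : pureFnM K 𝔫 P f₀ F h ≠ 0) : OutsideUM K 𝔫 P h := by
  by_contra hO
  apply hh
  unfold pureFnM
  rw [if_neg hO]

/-! ## Bi-invariance -/

theorem isBiInv_pureFnM709 {𝔫 : Ideal (𝓞 K)} {P : Finset (HeightOneSpectrum (𝓞 K))}
    {f₀ : ∀ v : HeightOneSpectrum (𝓞 K), GL (Fin 2) (v.adicCompletion K) → ℂ}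
    {F : InfinitePlace K → GL (Fin 2) ℂ → ℂ}
    (hf₀ : ∀ v ∈ P, AS.IsBiIntInv v (f₀ v)) (hF : ∀ w, AS.IsCplxTest (F w)) :
    IsBiInv K 𝔫 (pureFnM K 𝔫 P f₀ F) := by
  have hone := fun v : HeightOneSpectrum (𝓞 K) => isIntGL_one245 v
  have hU1 : AS.IsUnitary2 (1 : GL (Fin 2) ℂ) := by
    simp [AS.IsUnitary2]
  refine ⟨?_, ?_⟩
  · intro u hu h
    have huo : u ∈ outUM709 𝔫 P := level_mem_outUM709 hu
    have hk : ∀ v, AS.IsIntGL v (AS.finGL K v u) := fun v =>
      isIntGL_of_mem_locU245 (finGL_mem_locU_of_level245 hu v)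
    have hinf : ∀ w, AS.infGL K w u = 1 := fun w => infGL_eq_one245 (hu.1 w)
    refine ⟨pureFnM_congr709 ?_ ?_ ?_, pureFnM_congr709 ?_ ?_ ?_⟩
    · exact Subgroup.mul_mem_cancel_left _ huo
    · intro v hv
      rw [map_mul]
      have := hf₀ v hv (AS.finGL K v u) 1 (AS.finGL K v h) (hk v) (hone v)
      rwa [mul_one] at this
    · intro w
      rw [map_mul, hinf w, one_mul]
    · exact Subgroup.mul_mem_cancel_right _ huo
    · intro v hv
      rw [map_mul]
      have := hf₀ v hv 1 (AS.finGL K v u) (AS.finGL K v h) (hone v) (hk v)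
      rwa [one_mul] at this
    · intro w
      rw [map_mul, hinf w, mul_one]
  · intro w k hk h
    have hko : k ∈ outUM709 𝔫 P := arch_mem_outUM709 hk.1
    have hfin : ∀ v, AS.finGL K v k = 1 := fun v => finGL_eq_one245 (hk.1.2 v)
    have hinf : ∀ w', w' ≠ w → AS.infGL K w' k = 1 :=
      fun w' hw' => infGL_eq_one245 (hk.1.1 w' hw')
    have hun : AS.IsUnitary2 (AS.infGL K w k) := hk.2.1
    refine ⟨pureFnM_congr709 ?_ ?_ ?_, pureFnM_congr709 ?_ ?_ ?_⟩
    · exact Subgroup.mul_mem_cancel_left _ hko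
    · intro v _
      rw [map_mul, hfin v, one_mul]
    · intro w'
      rw [map_mul]
      by_cases hw' : w' = w
      · subst hw'
        have := (hF w').bi_inv (AS.infGL K w' k) 1 (AS.infGL K w' h) hun hU1
        rwa [mul_one] at this
      · rw [hinf w' hw', one_mul]
    · exact Subgroup.mul_mem_cancel_right _ hko
    · intro v _
      rw [map_mul, hfin v, mul_one]
    · intro w'
      rw [map_mul]
      by_cases hw' : w' = w
      · subst hw'
        have := (hF w').bi_inv 1 (AS.infGL K w' k) (AS.infGL K w' h) hU1 hun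
        rwa [one_mul] at this
      · rw [hinf w' hw', mul_one]

/-! ## Compact support -/

/-- A common denominator on the supports of the `f₀ v`, `v ∈ P`. -/
theorem exists_fin_boundM709 (P : Finset (HeightOneSpectrum (𝓞 K)))
    (f₀ : ∀ v : HeightOneSpectrum (𝓞 K), GL (Fin 2) (v.adicCompletion K) → ℂ)
    (hR : ∀ v ∈ P, ∃ R : Finset (GL (Fin 2) (v.adicCompletion K)), AS.IsRepSys v (f₀ v) R) :
    ∃ a : 𝓞 K, a ≠ 0 ∧ ∀ v ∈ P, ∀ g : GL (Fin 2) (v.adicCompletion K), f₀ v g ≠ 0 →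
      ∀ i j : Fin 2,
        toCompl245 K v a * (g : Matrix (Fin 2) (Fin 2) (v.adicCompletion K)) i j
          ∈ v.adicCompletionIntegers K ∧
        toCompl245 K v a * ((g⁻¹ : GL (Fin 2) (v.adicCompletion K)) :
          Matrix (Fin 2) (Fin 2) (v.adicCompletion K)) i j ∈ v.adicCompletionIntegers K := by
  classical
  induction P using Finset.induction_on with
  | empty => exact ⟨1, one_ne_zero, fun v hv => absurd hv (Finset.notMem_empty v)⟩
  | insert v₀ P _ ih =>
    obtain ⟨a, ha0, ha⟩ := ih (fun v hv => hR v (Finset.mem_insert_of_mem hv))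
    obtain ⟨b, hb0, hb⟩ := exists_fin_bound245 (hR v₀ (Finset.mem_insert_self _ _))
    refine ⟨a * b, mul_ne_zero ha0 hb0, ?_⟩
    intro v hv g hg i j
    rw [toCompl245_mul]
    rcases Finset.mem_insert.1 hv with hv | hv
    · subst hv
      constructor
      · rw [mul_assoc]
        exact mul_mem (toCompl245_mem_integers K v a) (hb g hg i j).1
      · rw [mul_assoc]
        exact mul_mem (toCompl245_mem_integers K v a) (hb g hg i j).2
    · constructor
      · rw [mul_comm (toCompl245 K v a), mul_assoc]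
        exact mul_mem (toCompl245_mem_integers K v b) (ha v hv g hg i j).1
      · rw [mul_comm (toCompl245 K v a), mul_assoc]
        exact mul_mem (toCompl245_mem_integers K v b) (ha v hv g hg i j).2

theorem hasCompactSupport_pureFnM709 {𝔫 : Ideal (𝓞 K)}
    {P : Finset (HeightOneSpectrum (𝓞 K))}
    {f₀ : ∀ v : HeightOneSpectrum (𝓞 K), GL (Fin 2) (v.adicCompletion K) → ℂ}
    {F : InfinitePlace K → GL (Fin 2) ℂ → ℂ}
    (hR : ∀ v ∈ P, ∃ R : Finset (GL (Fin 2) (v.adicCompletion K)), AS.IsRepSys v (f₀ v) R)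
    (hF : ∀ w, HasCompactSupport (F w)) :
    HasCompactSupport (pureFnM K 𝔫 P f₀ F) := by
  have := Fermat.Agent.LT.H11.LC.t2Space_GL2_adeleRing_h11 K
  obtain ⟨a, ha0, ha⟩ := exists_fin_boundM709 P f₀ hR
  have hρ' := fun w => exists_arch_bound245 (hF w)
  choose ρ' hρ' using hρ'
  obtain ⟨ρ, hρ⟩ := Finite.bddAbove_range ρ'
  refine HasCompactSupport.intro (isCompact_boxG245 ρ a) ?_
  intro h hh
  by_contra hne
  apply hh
  have hO : OutsideUM K 𝔫 P h := outsideUM_of_pureFnM_ne_zero709 hne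
  have hval : pureFnM K 𝔫 P f₀ F h
      = (∏ v ∈ P, f₀ v (AS.finGL K v h)) * ∏ w : InfinitePlace K, F w (AS.infGL K w h) := by
    unfold pureFnM
    rw [if_pos hO]
  rw [hval] at hne
  have hf : ∀ v ∈ P, f₀ v (AS.finGL K v h) ≠ 0 := fun v hv =>
    (Finset.prod_ne_zero_iff.1 (left_ne_zero_of_mul hne)) v hv
  have hFw : ∀ w, F w (AS.infGL K w h) ≠ 0 := fun w =>
    (Finset.prod_ne_zero_iff.1 (right_ne_zero_of_mul hne)) w (Finset.mem_univ w)
  have key : ∀ g : G K,
      (∀ (w : InfinitePlace K) (i j : Fin 2),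
        ‖((AS.infGL K w g : GL (Fin 2) ℂ) : Matrix (Fin 2) (Fin 2) ℂ) i j‖ ≤ ρ) →
      (∀ (v : HeightOneSpectrum (𝓞 K)) (i j : Fin 2),
        toCompl245 K v a * ((AS.finGL K v g : GL (Fin 2) (v.adicCompletion K)) :
          Matrix (Fin 2) (Fin 2) (v.adicCompletion K)) i j ∈ v.adicCompletionIntegers K) →
      (g : Matrix (Fin 2) (Fin 2) (Adl K)) ∈ boxMat245 K ρ a := by
    intro g h1 h2 i j
    exact ⟨fun w => h1 w i j, mem_boxFin245 ha0 fun v => h2 v i j⟩
  have hloc := outsideUM_iff709.1 hO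
  refine ⟨key h ?_ ?_, key h⁻¹ ?_ ?_⟩
  · intro w i j
    exact ((hρ' w _ (hFw w) i j).1).trans (hρ ⟨w, rfl⟩)
  · intro v i j
    by_cases hv : v ∈ P
    · exact (ha v hv _ (hf v hv) i j).1
    · exact mul_mem (toCompl245_mem_integers K v a)
        ((isIntGL_of_mem_locU245 (hloc v hv)) i j).1
  · intro w i j
    rw [map_inv]
    exact ((hρ' w _ (hFw w) i j).2).trans (hρ ⟨w, rfl⟩)
  · intro v i j
    rw [map_inv]
    by_cases hv : v ∈ P
    · exact (ha v hv _ (hf v hv) i j).2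
    · exact mul_mem (toCompl245_mem_integers K v a)
        ((isIntGL_of_mem_locU245 (hloc v hv)) i j).2

/-! ## The leaf -/

/-- **T3.18M.3 = M.3 `PureRegMC`.** -/
theorem pureRegMC709 (K : Type) [Field K] [NumberField K] : PureRegMC K := by
  intro 𝔫 h𝔫 P _ f₀ F hf₀ hR hF
  exact ⟨continuous_pureFnM709 h𝔫 P hf₀ (fun w => (hF w).cont),
    hasCompactSupport_pureFnM709 hR (fun w => (hF w).supp),
    isBiInv_pureFnM709 hf₀ hF,
    fun _ hh => outsideUM_of_pureFnM_ne_zero709 hh⟩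

end Fermat.Agent.LT.T3.M.H709

end
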